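/-
S55 / 36e (helper72), (T6): slot A3 at the concrete class module.

`hasFormationDatum_of_CSlim` = helper41's `S1Limit41.Formation.hasFormationDatum_of_class`
instantiated at `C := CSlim S (diagJ S)`, `Cl := clMod (divLim S)`, `φ ψ := ClassData72.phi/psi`
(the instantiation record asked for by the referee, helper3 #2480): slot A3
(`CDArith63.P1Chain.HasFormationDatum p S V hV`) from

* the `p`-primary local invariants `invJp w` on `H²(V, J_S)` (52 + 22b),
* a `p`-primary invariant `invCp` on `H²(V, C_S)` of the TRUE class module, injective, with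
  `invCp ∘ a_* = ∑_w invJp w` (35 + L-d),
* `H¹(V, C_S)(p) = 0` (33; `_ineqOut`: from the two inequalities),
* `H³(V, J_S)[p] = 0`.

`hasFormationDatum_of_total` : the same with `invCp ∘ a_*` factored through a TOTAL idelic
invariant `invM` on `H²(V, J_S × I^S)` ((G2) + (G3) of helper41 #2465).
-/
import Mathlib
import Fermat.Agent.S55.ClassFormation72
import Fermat.Agent.S55.S1Limit41.Formation
import Fermat.Agent.S55.CS79.FamilyMaps
import Fermat.Agent.S55.CS79.FormationCS

set_option autoImplicit false
set_option linter.style.haveILetI false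
set_option linter.unusedSectionVars false
set_option linter.unusedVariables false

open CategoryTheory groupCohomology ExtCitation

namespace Fermat.Agent.S55.ClassFormation72.CSlim

open Fermat.Agent.S55.Profin15 Fermat.Agent.S55.Profin15.LevelStr Fermat.Agent.S55.CD3
open Fermat.Agent.S55.CDArith63 Fermat.Agent.S55.CDArith63.Adapter
open Fermat.Agent.S55.CDArith63.P1Chain
open Fermat.Agent.S55.ESDiv20 Fermat.Agent.S55.ESRep20 Fermat.Agent.S55.GlobalMod94.JS
open Fermat.Agent.S55.CS79.DivLimit Fermat.Agent.S55.CS79.Restrict Fermat.Agent.S55.CS79.Primary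
open Fermat.Agent.S55.ClassData72 Fermat.Agent.S55.ClassFormation72 Fermat.Agent.S55.QZ33
open Fermat.Agent.S55.PrimaryExt14

variable {p : ℕ} [hp : Fact p.Prime] {S : Finset Nat.Primes}
variable (V : Subgroup GQ) (hV : IsOpenSub (globalLevels S) V)

/-- **Slot A3 from a class formation on the true class module `C_S = CSlim S (diagJ S)`**
(`p`-primary invariant `invCp`; the conclusion shape of `LimDesc99.exists_invCp_of_layers`). -/
theorem hasFormationDatum_of_CSlim (hpS : pPrime p ∈ S) {W : Type} [Fintype W] [Nonempty W]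
    (invJp : W → (primary p ((restrictLevels (globalLevels S) V hV).H2
      (Rep.res V.subtype (JSp S))) →+ QZ))
    (hinjp : ∀ x : primary p ((restrictLevels (globalLevels S) V hV).H2
      (Rep.res V.subtype (JSp S))), (∀ w, invJp w x = 0) → x = 0)
    (hsurjp : ∀ (t : W → QZ) (n : ℕ), (∀ w, (p ^ n) • t w = 0) →
      ∃ x : primary p ((restrictLevels (globalLevels S) V hV).H2 (Rep.res V.subtype (JSp S))),
        (p ^ n) • x = 0 ∧ ∀ w, invJp w x = t w)
    (invCp : primary p ((restrictLevels (globalLevels S) V hV).H2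
      (Rep.res V.subtype (CSl S))) →+ QZ)
    (hinjCp : ∀ c : primary p ((restrictLevels (globalLevels S) V hV).H2
      (Rep.res V.subtype (CSl S))), invCp c = 0 → c = 0)
    (hcompatp : ∀ x : primary p ((restrictLevels (globalLevels S) V hV).H2
        (Rep.res V.subtype (JSp S))),
      invCp (mapPrimary p ((restrictLevels (globalLevels S) V hV).H2map (aV S V)
        (aV_equivariant S V)).toAddMonoidHom x) = ∑ w, invJp w x)
    (hH1C : H1PrimaryVanishes (restrictLevels (globalLevels S) V hV) p
      (Rep.res V.subtype (CSl S)))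
    (hH3J : H3TorsVan (restrictLevels (globalLevels S) V hV) p (resSub (canρ (JSp S)) V)) :
    HasFormationDatum p S V hV :=
  S1Limit41.Formation.hasFormationDatum_of_class S V hV (shortExact S) (isSmooth_CSl S)
    (isPrimeToP_ClS S hpS) (classData S).equivariant_a (phi_πCS S) invJp hinjp hsurjp invCp hinjCp
    hcompatp hH1C hH3J


/-- the same with `H¹(V, C_S)(p) = 0` discharged from the two inequalities at the finite levels
(`CofinalCS.IneqOut` = 31-OUT + 32-OUT), for `V ≤ V₀`. -/
theorem hasFormationDatum_of_CSlim_ineqOut (hpS : pPrime p ∈ S)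
    {L₀ : IntermediateField ℚ (AlgebraicClosure ℚ)} (hL₀ : L₀.IsUnramifiedOutside S)
    {V₀ : Subgroup GQ} (hineq : CS79.CofinalCS.IneqOut S p L₀ V₀) (hVV₀ : V ≤ V₀)
    {W : Type} [Fintype W] [Nonempty W]
    (invJp : W → (primary p ((restrictLevels (globalLevels S) V hV).H2
      (Rep.res V.subtype (JSp S))) →+ QZ))
    (hinjp : ∀ x : primary p ((restrictLevels (globalLevels S) V hV).H2
      (Rep.res V.subtype (JSp S))), (∀ w, invJp w x = 0) → x = 0)
    (hsurjp : ∀ (t : W → QZ) (n : ℕ), (∀ w, (p ^ n) • t w = 0) →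
      ∃ x : primary p ((restrictLevels (globalLevels S) V hV).H2 (Rep.res V.subtype (JSp S))),
        (p ^ n) • x = 0 ∧ ∀ w, invJp w x = t w)
    (invCp : primary p ((restrictLevels (globalLevels S) V hV).H2
      (Rep.res V.subtype (CSl S))) →+ QZ)
    (hinjCp : ∀ c : primary p ((restrictLevels (globalLevels S) V hV).H2
      (Rep.res V.subtype (CSl S))), invCp c = 0 → c = 0)
    (hcompatp : ∀ x : primary p ((restrictLevels (globalLevels S) V hV).H2
        (Rep.res V.subtype (JSp S))),
      invCp (mapPrimary p ((restrictLevels (globalLevels S) V hV).H2map (aV S V)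
        (aV_equivariant S V)).toAddMonoidHom x) = ∑ w, invJp w x)
    (hH3J : H3TorsVan (restrictLevels (globalLevels S) V hV) p (resSub (canρ (JSp S)) V)) :
    HasFormationDatum p S V hV :=
  hasFormationDatum_of_CSlim V hV hpS invJp hinjp hsurjp invCp hinjCp hcompatp
    (CS79.CofinalCS.h1PrimaryVanishes_CS_res (⟨_, hpS⟩ : S.Nonempty) hL₀ hineq V hV hVV₀) hH3J

/-! ### factoring through a total idelic invariant on `J_S × I^S` -/

section Total

open Fermat.Agent.S55.CS79.FamilyMaps Fermat.Agent.S55.CS79.ClassSeq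

/-- `j ↦ (j, 0) : J_S → J_S × I^S`, restricted to `V` -/
noncomputable abbrev inlV :=
  resLin (A := JSp S) (B := MS S) V.subtype (LinearMap.inl ℤ (JSp S) (ISlim S))

theorem inlV_equivariant : IsEquivariant (inlV (S := S) V) := fun g j => by
  show ((JSp S).ρ (g : GQ) j, (0 : ISlim S)) = ((JSp S).ρ (g : GQ) j, (ISlim S).ρ (g : GQ) 0)
  rw [map_zero]

/-- the class projection `J_S × I^S → C_S`, restricted to `V` -/
noncomputable abbrev clV :=
  resLin (A := MS S) (B := CSl S) V.subtype (πS S).hom.toLinearMap

theorem clV_equivariant : IsEquivariant (clV (S := S) V) :=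
  (LevelStr.isEquivariant_hom (πS S)).res V.subtype

theorem clV_comp_inlV : (clV (S := S) V) ∘ₗ (inlV (S := S) V) = aV S V := rfl

theorem H2map_clV_H2map_inlV
    (x : (restrictLevels (globalLevels S) V hV).H2 (Rep.res V.subtype (JSp S))) :
    (restrictLevels (globalLevels S) V hV).H2map (clV (S := S) V) (clV_equivariant V)
        ((restrictLevels (globalLevels S) V hV).H2map (inlV (S := S) V) (inlV_equivariant V) x) =
      (restrictLevels (globalLevels S) V hV).H2map (aV S V) (aV_equivariant S V) x := by
  rw [← H2map_comp]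
  exact S1Limit41.Formation.H2map_congr' _ _ _ (clV_comp_inlV V) x

/-- **Slot A3 from a total idelic invariant**: `invM` on `H²(V, J_S × I^S)`, whose restriction to
the `J_S`-factor is the sum of the local invariants on `p`-primary classes ((G3)), and a
`p`-primary injective invariant `invCp` on `H²(V, C_S)` with `invCp ∘ cl_* = invM` on `p`-primary
classes ((G2) = the conclusion of `LimDesc99.exists_invCp_of_layers` for
`Q_Sˣ → J_S × I^S → C_S` over `V`). -/
theorem hasFormationDatum_of_total (hpS : pPrime p ∈ S) {W : Type} [Fintype W] [Nonempty W]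
    (invJp : W → (primary p ((restrictLevels (globalLevels S) V hV).H2
      (Rep.res V.subtype (JSp S))) →+ QZ))
    (hinjp : ∀ x : primary p ((restrictLevels (globalLevels S) V hV).H2
      (Rep.res V.subtype (JSp S))), (∀ w, invJp w x = 0) → x = 0)
    (hsurjp : ∀ (t : W → QZ) (n : ℕ), (∀ w, (p ^ n) • t w = 0) →
      ∃ x : primary p ((restrictLevels (globalLevels S) V hV).H2 (Rep.res V.subtype (JSp S))),
        (p ^ n) • x = 0 ∧ ∀ w, invJp w x = t w)
    (invM : (restrictLevels (globalLevels S) V hV).H2 (Rep.res V.subtype (MS S)) →+ QZ)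
    (hG3 : ∀ x : primary p ((restrictLevels (globalLevels S) V hV).H2
        (Rep.res V.subtype (JSp S))),
      invM ((restrictLevels (globalLevels S) V hV).H2map (inlV (S := S) V)
        (inlV_equivariant V) (x : (restrictLevels (globalLevels S) V hV).H2
          (Rep.res V.subtype (JSp S)))) = ∑ w, invJp w x)
    (invCp : primary p ((restrictLevels (globalLevels S) V hV).H2
      (Rep.res V.subtype (CSl S))) →+ QZ)
    (hG2 : ∀ y : primary p ((restrictLevels (globalLevels S) V hV).H2
        (Rep.res V.subtype (MS S))),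
      invCp (mapPrimary p ((restrictLevels (globalLevels S) V hV).H2map (clV (S := S) V)
        (clV_equivariant V)).toAddMonoidHom y) =
        invM (y : (restrictLevels (globalLevels S) V hV).H2 (Rep.res V.subtype (MS S))))
    (hinjCp : ∀ c : primary p ((restrictLevels (globalLevels S) V hV).H2
      (Rep.res V.subtype (CSl S))), invCp c = 0 → c = 0)
    (hH1C : H1PrimaryVanishes (restrictLevels (globalLevels S) V hV) p
      (Rep.res V.subtype (CSl S)))
    (hH3J : H3TorsVan (restrictLevels (globalLevels S) V hV) p (resSub (canρ (JSp S)) V)) :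
    HasFormationDatum p S V hV := by
  refine hasFormationDatum_of_CSlim V hV hpS invJp hinjp hsurjp invCp hinjCp ?_ hH1C hH3J
  intro x
  rw [← hG3 x]
  have h1 := hG2 (mapPrimary p ((restrictLevels (globalLevels S) V hV).H2map (inlV (S := S) V)
    (inlV_equivariant V)).toAddMonoidHom x)
  rw [coe_mapPrimary] at h1
  refine Eq.trans ?_ h1
  congr 1
  apply Subtype.ext
  exact (H2map_clV_H2map_inlV V hV (x : (restrictLevels (globalLevels S) V hV).H2
    (Rep.res V.subtype (JSp S)))).symm

end Total


/-! ### slot A3 from the finite levels of the D2 model -/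

section Levels

open Fermat.Agent.S55.CS79.FamilyMaps Fermat.Agent.S55.CS79.FamilyCS
open Fermat.Agent.S55.CS79.FormationCS Fermat.Agent.S55.CS79.LevelClass
open Fermat.Agent.S55.LimDesc99

/-- **SLOT A3 FROM THE FINITE LEVELS OF THE D2 MODEL** (helper79 `FormationCS.exists_invCp_CS` ∘
`hasFormationDatum_of_total`): `HasFormationDatum p S V hV` from

* the `p`-primary local invariants `invJp w` on `H²(V, J_S)` (52 + 22b);
* a total idelic invariant `invM` on `H²(V, J_S × I^S)` whose restriction to the `J_S`-factor is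
  `∑_w invJp w` on `p`-primary classes ((G3)), computed at the finite levels by `invMU`;
* (α), (β→), (β←) at the finite levels `(Gal(L/K), Lˣ → J_S(L) × I^S(L) → C_S(L))` (35-GEN);
* `H¹(V, C_S)(p) = 0` (33) and `H³(V, J_S)[p] = 0`. -/
theorem hasFormationDatum_of_levels (hpS : pPrime p ∈ S) {W : Type} [Fintype W] [Nonempty W]
    (invJp : W → (primary p ((restrictLevels (globalLevels S) V hV).H2
      (Rep.res V.subtype (JSp S))) →+ QZ))
    (hinjp : ∀ x : primary p ((restrictLevels (globalLevels S) V hV).H2
      (Rep.res V.subtype (JSp S))), (∀ w, invJp w x = 0) → x = 0)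
    (hsurjp : ∀ (t : W → QZ) (n : ℕ), (∀ w, (p ^ n) • t w = 0) →
      ∃ x : primary p ((restrictLevels (globalLevels S) V hV).H2 (Rep.res V.subtype (JSp S))),
        (p ^ n) • x = 0 ∧ ∀ w, invJp w x = t w)
    (invM : (restrictLevels (globalLevels S) V hV).H2 (MV S V) →+ QZ)
    (hG3 : ∀ x : primary p ((restrictLevels (globalLevels S) V hV).H2
        (Rep.res V.subtype (JSp S))),
      invM ((restrictLevels (globalLevels S) V hV).H2map (inlV (S := S) V)
        (inlV_equivariant V) (x : (restrictLevels (globalLevels S) V hV).H2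
          (Rep.res V.subtype (JSp S)))) = ∑ w, invJp w x)
    (invMU : ∀ i : LevV S V, H2 (Rep.res (HV S V i).subtype (IdeleVal44.JIS i.1.1 S)) →+ QZ)
    (hinvM : ∀ (i : LevV S V) (x : H2 (Rep.res (HV S V i).subtype (IdeleVal44.JIS i.1.1 S))),
      invM (((famMV S V hV).d i).infl₂ x) = invMU i x)
    (hα : ∀ (j : LevV S V)
      (x : H2 (Rep.res (HV S V j).subtype (IdeleVal44.CS (unrOutside S j.1.1 j.1.unr)))) (n : ℕ),
      (p ^ n) • x = 0 →
      ∃ (l : LevV S V) (h : l ≤ j)
        (y : H2 (Rep.res (HV S V l).subtype (IdeleVal44.JIS l.1.1 S))) (m : ℕ),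
        (p ^ m) • y = 0 ∧
          bLevV l y = Datum.trans₂ ((famCV S V hV (⟨_, hpS⟩ : S.Nonempty)).mono h) x)
    (hβto : ∀ (j : LevV S V) (e : H2 (Rep.res (HV S V j).subtype (Idele73.Basic.Lx j.1.1))) (n : ℕ),
      (p ^ n) • e = 0 →
      ∃ (l : LevV S V) (h : l ≤ j),
        invMU l (aLevV l (Datum.trans₂ ((famKV S V hV).mono h) e)) = 0)
    (hβfrom : ∀ (j : LevV S V)
      (x : H2 (Rep.res (HV S V j).subtype (IdeleVal44.JIS j.1.1 S))) (n : ℕ),
      (p ^ n) • x = 0 → invMU j x = 0 →
      ∃ (l : LevV S V) (h : l ≤ j) (e : H2 (Rep.res (HV S V l).subtype (Idele73.Basic.Lx l.1.1))),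
        aLevV l e = Datum.trans₂ ((famMV S V hV).mono h) x)
    (hH1C : H1PrimaryVanishes (restrictLevels (globalLevels S) V hV) p
      (Rep.res V.subtype (CSl S)))
    (hH3J : H3TorsVan (restrictLevels (globalLevels S) V hV) p (resSub (canρ (JSp S)) V)) :
    HasFormationDatum p S V hV := by
  obtain ⟨invCp, hG2, hinjCp⟩ := exists_invCp_CS (S := S) (V := V) hV p (⟨_, hpS⟩ : S.Nonempty) invM invMU hinvM
    hα hβto hβfrom
  exact hasFormationDatum_of_total V hV hpS invJp hinjp hsurjp invM hG3 invCp (fun y => hG2 y)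
    hinjCp hH1C hH3J

end Levels

end Fermat.Agent.S55.ClassFormation72.CSlim
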